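/-
GATE-L / PREP node AUX-PRIME (helper2).

Auxiliary primes killing the elliptic points: for every `n ≠ 0` there is a prime `r ∤ n`
(even `r > n`) with `r ≡ 11 mod 12`, and for such `r` the prelude numbers `nuTwo`, `nuThree`
vanish at every level divisible by `r`.  (Used to pass from level `N` to level `N r` where
`X₀(N r) → X(1)` has no elliptic points: helper28 2469 (5), helper84 2444 (D), helper35 2542 (0).)
-/
import Mathlib
import Fermat.Prelude.Def_ModularCurve_GenusNumerics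

set_option autoImplicit false

namespace Fermat.Agent.GL.AuxPrime

open ModularCurve

/-- Dirichlet: a prime `r > n`, `r ≡ 11 mod 12`. -/
theorem exists_prime_gt_mod_twelve (n : ℕ) : ∃ r : ℕ, n < r ∧ r.Prime ∧ r % 12 = 11 := by
  obtain ⟨r, hgt, hr, hmod⟩ :=
    Nat.forall_exists_prime_gt_and_modEq n (q := 12) (a := 11) (by norm_num) (by norm_num)
  exact ⟨r, hgt, hr, hmod⟩

/-- a prime `r ∤ n`, `r ≡ 11 mod 12`. -/
theorem exists_prime_not_dvd_mod_twelve {n : ℕ} (hn : n ≠ 0) :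
    ∃ r : ℕ, r.Prime ∧ ¬ r ∣ n ∧ r % 12 = 11 := by
  obtain ⟨r, hgt, hr, hmod⟩ := exists_prime_gt_mod_twelve n
  exact ⟨r, hr, fun h => absurd (Nat.le_of_dvd (Nat.pos_of_ne_zero hn) h) (not_le.2 hgt), hmod⟩

/-- a prime `r ≡ 11 mod 12` avoiding finitely many numbers at once (take their product). -/
theorem exists_prime_not_dvd_mul_mod_twelve {a b c : ℕ} (ha : a ≠ 0) (hb : b ≠ 0) (hc : c ≠ 0) :
    ∃ r : ℕ, r.Prime ∧ ¬ r ∣ a ∧ ¬ r ∣ b ∧ ¬ r ∣ c ∧ r % 12 = 11 := by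
  obtain ⟨r, hr, hnd, hmod⟩ :=
    exists_prime_not_dvd_mod_twelve (n := a * b * c) (mul_ne_zero (mul_ne_zero ha hb) hc)
  refine ⟨r, hr, fun h => hnd ?_, fun h => hnd ?_, fun h => hnd ?_, hmod⟩
  · exact (h.mul_right b).mul_right c
  · exact (h.mul_left a).mul_right c
  · exact h.mul_left (a * b)

theorem mod_four_of_mod_twelve {r : ℕ} (h : r % 12 = 11) : r % 4 = 3 := by omega

theorem mod_three_of_mod_twelve {r : ℕ} (h : r % 12 = 11) : r % 3 = 2 := by omega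

/-- no square root of `-1` modulo a level divisible by a prime `r ≡ 3 mod 4`. -/
theorem nuTwo_eq_zero_of_dvd {N r : ℕ} (hr : r.Prime) (h4 : r % 4 = 3) (hrN : r ∣ N) :
    nuTwo N = 0 := by
  have : Fact r.Prime := ⟨hr⟩
  unfold nuTwo
  rw [Nat.card_eq_zero]
  left
  constructor
  rintro ⟨x, hx⟩
  have h1 : (ZMod.castHom hrN (ZMod r) x) ^ 2 + 1 = 0 := by
    rw [← map_pow, ← map_one (ZMod.castHom hrN (ZMod r)), ← map_add, hx, map_zero]
  have h2 : IsSquare (-1 : ZMod r) :=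
    ⟨ZMod.castHom hrN (ZMod r) x, by rw [← pow_two]; exact (eq_neg_of_add_eq_zero_left h1).symm⟩
  exact (ZMod.exists_sq_eq_neg_one_iff.1 h2) h4

/-- no primitive cube root of unity modulo a level divisible by a prime `r ≡ 2 mod 3`. -/
theorem nuThree_eq_zero_of_dvd {N r : ℕ} (hr : r.Prime) (h3 : r % 3 = 2) (hrN : r ∣ N) :
    nuThree N = 0 := by
  have : Fact r.Prime := ⟨hr⟩
  unfold nuThree
  rw [Nat.card_eq_zero]
  left
  constructor
  rintro ⟨x, hx⟩
  set y : ZMod r := ZMod.castHom hrN (ZMod r) x with hy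
  have h1 : y ^ 2 + y + 1 = 0 := by
    rw [hy, ← map_pow, ← map_one (ZMod.castHom hrN (ZMod r)), ← map_add, ← map_add, hx, map_zero]
  have hcube : y ^ 3 = 1 := by
    have : y ^ 3 - 1 = (y - 1) * (y ^ 2 + y + 1) := by ring
    rw [h1, mul_zero, sub_eq_zero] at this
    exact this
  have hne : y ≠ 1 := by
    intro h
    rw [h] at h1
    have h3' : ((3 : ℕ) : ZMod r) = 0 := by
      have : (1 : ZMod r) ^ 2 + 1 + 1 = ((3 : ℕ) : ZMod r) := by push_cast; ring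
      rw [← this, h1]
    rw [ZMod.natCast_eq_zero_iff] at h3'
    have : r = 3 := (Nat.prime_dvd_prime_iff_eq hr Nat.prime_three).1 h3'
    omega
  have hy0 : y ≠ 0 := by
    intro h
    rw [h] at hcube
    simp at hcube
  -- order 3 in the unit group of order `r - 1`
  have hord : orderOf y = 3 := orderOf_eq_prime hcube hne
  have hfer : y ^ (r - 1) = 1 := ZMod.pow_card_sub_one_eq_one hy0
  have hdvd : 3 ∣ r - 1 := by
    rw [← hord]
    exact orderOf_dvd_of_pow_eq_one hfer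
  have hr2 := hr.two_le
  omega

/-- **AUX-PRIME**: for every `n ≠ 0` there is a prime `r ∤ n` such that every level `N'`
divisible by `r` has `nuTwo N' = 0` and `nuThree N' = 0` (no elliptic points). -/
theorem exists_aux_prime {n : ℕ} (hn : n ≠ 0) :
    ∃ r : ℕ, r.Prime ∧ ¬ r ∣ n ∧ r % 12 = 11 ∧
      ∀ N' : ℕ, r ∣ N' → nuTwo N' = 0 ∧ nuThree N' = 0 := by
  obtain ⟨r, hr, hnd, hmod⟩ := exists_prime_not_dvd_mod_twelve hn
  exact ⟨r, hr, hnd, hmod, fun N' h =>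
    ⟨nuTwo_eq_zero_of_dvd hr (mod_four_of_mod_twelve hmod) h,
      nuThree_eq_zero_of_dvd hr (mod_three_of_mod_twelve hmod) h⟩⟩

/-- two distinct auxiliary primes (for the gcd trick `gcd (r₁ + 1, r₂ + 1) ∣ 12`-type arguments). -/
theorem exists_two_aux_primes {n : ℕ} (hn : n ≠ 0) :
    ∃ r₁ r₂ : ℕ, r₁.Prime ∧ r₂.Prime ∧ r₁ ≠ r₂ ∧ ¬ r₁ ∣ n ∧ ¬ r₂ ∣ n ∧
      r₁ % 12 = 11 ∧ r₂ % 12 = 11 := by
  obtain ⟨r₁, hr₁, hnd₁, hmod₁⟩ := exists_prime_not_dvd_mod_twelve hn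
  obtain ⟨r₂, hr₂, hnd₂, hmod₂⟩ :=
    exists_prime_not_dvd_mod_twelve (n := n * r₁) (mul_ne_zero hn hr₁.ne_zero)
  refine ⟨r₁, r₂, hr₁, hr₂, ?_, hnd₁, fun h => hnd₂ (h.mul_right r₁), hmod₁, hmod₂⟩
  intro h
  exact hnd₂ (h ▸ Dvd.intro_left n rfl)

end Fermat.Agent.GL.AuxPrime
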