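/-
GATE-L / PREP node TAME-CYC (helper2).  Mathlib only.

Abstract structure of an inertia group: a finite group `G` acting faithfully by ring
automorphisms on a discrete valuation ring `O` of residue characteristic `q`, trivially on the
residue field and such that every residue class contains a `G`-invariant element
(`hdig`: true for inertia groups when the residue field extension is separable),
is an extension of a cyclic group of order prime to `q` by a `q`-group (the wild inertia
subgroup `wild O G = ramif O G 2`).  Consequently, for every prime `p ≠ q`, all `p`-subgroups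
and all quotients of `G` of order prime to `q` are cyclic.

Main results (namespace `Fermat.Agent.GL.TameCyclic`):
* `ramif O G n : Subgroup G`        : elements acting trivially on `O / m ^ n` (normal);
* `mem_ramif_of_unif`               : `g • π - π ∈ m ^ n → g ∈ ramif O G n`;
* `eq_one_of_mem_wild_of_pow_eq_one`: an element of `wild O G` of order prime to `q` is `1`;
* `isPGroup_wild`, `isCyclic_quotient_wild`, `coprime_card_quotient_wild`;
* `exists_wild_tame`                : the packaged existential statement;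
* `isCyclic_of_isPGroup_subgroup`   : `p ≠ q`, `P ≤ G` a `p`-group ⟹ `P` cyclic;
* `isCyclic_quotient_of_coprime`    : `N ⊴ G`, `|G/N|` prime to `q` ⟹ `G ⧸ N` cyclic;
* `isCyclic_quotient_of_isPGroup`   : `N ⊴ G`, `G ⧸ N` a `p`-group, `p ≠ q` ⟹ `G ⧸ N` cyclic.
-/
import Mathlib

namespace Fermat.Agent.GL.TameCyclic

open IsLocalRing

section Basic

variable {O : Type*} [CommRing O]
variable {G : Type*} [Group G] [MulSemiringAction G O]

theorem isUnit_smul_iff_of_ringAction (g : G) (x : O) : IsUnit (g • x) ↔ IsUnit x := by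
  constructor
  · intro h
    obtain ⟨y, hy⟩ := h.exists_right_inv
    refine IsUnit.of_mul_eq_one (g⁻¹ • y) ?_
    have := congrArg (fun z => g⁻¹ • z) hy
    simpa [smul_mul'] using this
  · intro h
    obtain ⟨y, hy⟩ := h.exists_right_inv
    refine IsUnit.of_mul_eq_one (g • y) ?_
    rw [← smul_mul', hy, smul_one]

variable [IsLocalRing O]

theorem smul_mem_maximalIdeal_iff (g : G) (x : O) :
    g • x ∈ maximalIdeal O ↔ x ∈ maximalIdeal O := by
  simp only [IsLocalRing.mem_maximalIdeal, mem_nonunits_iff, isUnit_smul_iff_of_ringAction]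

theorem smul_mem_pow (g : G) (k : ℕ) {x : O} (hx : x ∈ maximalIdeal O ^ k) :
    g • x ∈ maximalIdeal O ^ k := by
  have h1 : Ideal.map (MulSemiringAction.toRingHom G O g) (maximalIdeal O) ≤ maximalIdeal O := by
    rw [Ideal.map_le_iff_le_comap]
    intro y hy
    exact (smul_mem_maximalIdeal_iff g y).2 hy
  have h2 : Ideal.map (MulSemiringAction.toRingHom G O g) (maximalIdeal O ^ k) ≤
      maximalIdeal O ^ k := by
    rw [Ideal.map_pow]
    exact Ideal.pow_right_mono h1 k
  exact h2 (Ideal.mem_map_of_mem _ hx)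

variable (O G) in
/-- `ramif O G n`: the elements of `G` acting trivially on `O / m ^ n`
(`n = 1`: inertia, `n = 2`: wild inertia, `n = i + 1`: the `i`-th lower ramification group). -/
def ramif (n : ℕ) : Subgroup G where
  carrier := {g | ∀ x : O, g • x - x ∈ maximalIdeal O ^ n}
  one_mem' := by intro x; simp
  mul_mem' := by
    intro g h hg hh x
    have e : (g * h) • x - x = g • (h • x - x) + (g • x - x) := by
      rw [mul_smul, smul_sub]; ring
    rw [e]
    exact Ideal.add_mem _ (smul_mem_pow g n (hh x)) (hg x)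
  inv_mem' := by
    intro g hg x
    have e : g⁻¹ • x - x = - (g⁻¹ • (g • x - x)) := by
      rw [smul_sub, inv_smul_smul]; ring
    rw [e]
    exact (Ideal.neg_mem_iff _).2 (smul_mem_pow g⁻¹ n (hg x))

theorem mem_ramif_iff {n : ℕ} {g : G} :
    g ∈ ramif O G n ↔ ∀ x : O, g • x - x ∈ maximalIdeal O ^ n := Iff.rfl

instance ramif_normal (n : ℕ) : (ramif O G n).Normal := ⟨by
  intro g hg h x
  have e : (h * g * h⁻¹) • x - x = h • (g • (h⁻¹ • x) - h⁻¹ • x) := by
    rw [mul_smul, mul_smul, smul_sub, smul_inv_smul]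
  rw [e]
  exact smul_mem_pow h n (hg _)⟩

theorem ramif_antitone {i j : ℕ} (hij : i ≤ j) : ramif O G j ≤ ramif O G i := by
  intro g hg x
  exact Ideal.pow_le_pow_right hij (hg x)

end Basic

section Unif

variable {O : Type*} [CommRing O] [IsLocalRing O]
variable {G : Type*} [Group G] [MulSemiringAction G O]

/-- If `g` moves a uniformiser only by an element of `m ^ n`, and every residue class contains a
`G`-invariant element, then `g` acts trivially on `O / m ^ n`. -/
theorem mem_ramif_of_unif {π : O} (hπ : maximalIdeal O = Ideal.span {π})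
    (hdig : ∀ x : O, ∃ c : O, (∀ g : G, g • c = c) ∧ x - c ∈ maximalIdeal O)
    (g : G) (n : ℕ) (hg : g • π - π ∈ maximalIdeal O ^ n) : g ∈ ramif O G n := by
  have key : ∀ k : ℕ, ∀ x : O, ∃ z : O,
      g • z - z ∈ maximalIdeal O ^ n ∧ x - z ∈ maximalIdeal O ^ k := by
    intro k
    induction k with
    | zero => intro x; exact ⟨0, by simp, by simp⟩
    | succ k ih =>
      intro x
      obtain ⟨z, hz1, hz2⟩ := ih x
      rw [hπ, Ideal.span_singleton_pow, Ideal.mem_span_singleton] at hz2
      obtain ⟨y, hy⟩ := hz2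
      obtain ⟨c, hc, hyc⟩ := hdig y
      refine ⟨z + π ^ k * c, ?_, ?_⟩
      · have h1 : g • (z + π ^ k * c) - (z + π ^ k * c) =
            (g • z - z) + ((g • π) ^ k - π ^ k) * c := by
          rw [smul_add, smul_mul', smul_pow', hc g]; ring
        rw [h1]
        refine Ideal.add_mem _ hz1 (Ideal.mul_mem_right _ _ ?_)
        obtain ⟨w, hw⟩ := sub_dvd_pow_sub_pow (g • π) π k
        rw [hw]
        exact Ideal.mul_mem_right _ _ hg
      · have e : x - (z + π ^ k * c) = π ^ k * (y - c) := by
          rw [mul_sub, ← hy]; ring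
        rw [e, pow_succ]
        refine Ideal.mul_mem_mul ?_ hyc
        rw [hπ, Ideal.span_singleton_pow]
        exact Ideal.mem_span_singleton_self _
  intro x
  obtain ⟨z, hz1, hz2⟩ := key n x
  have e : g • x - x = (g • (x - z) - (x - z)) + (g • z - z) := by
    rw [smul_sub]; ring
  rw [e]
  exact Ideal.add_mem _ (Ideal.sub_mem _ (smul_mem_pow g n hz2) hz2) hz1

/-- Inertia is everything: under `hdig`, `G` acts trivially on the residue field. -/
theorem ramif_one_eq_top {π : O} (hπ : maximalIdeal O = Ideal.span {π})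
    (hdig : ∀ x : O, ∃ c : O, (∀ g : G, g • c = c) ∧ x - c ∈ maximalIdeal O) :
    ramif O G 1 = ⊤ := by
  rw [eq_top_iff]
  intro g _
  refine mem_ramif_of_unif hπ hdig g 1 ?_
  rw [pow_one]
  refine Ideal.sub_mem _ ((smul_mem_maximalIdeal_iff g π).2 ?_) ?_ <;>
  · rw [hπ]; exact Ideal.mem_span_singleton_self _

/-- Wild elements move `m ^ j` only inside `m ^ (j + 1)`. -/
theorem smul_sub_mem_pow_succ {π : O} (hπ : maximalIdeal O = Ideal.span {π}) {g : G}
    (hg : g ∈ ramif O G 2) (j : ℕ) {a : O} (ha : a ∈ maximalIdeal O ^ j) :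
    g • a - a ∈ maximalIdeal O ^ (j + 1) := by
  induction j generalizing a with
  | zero => exact Ideal.pow_le_pow_right (by norm_num) (hg a)
  | succ j ih =>
    have hπm : π ∈ maximalIdeal O := by rw [hπ]; exact Ideal.mem_span_singleton_self _
    rw [hπ, Ideal.span_singleton_pow, Ideal.mem_span_singleton] at ha
    obtain ⟨y, rfl⟩ := ha
    have hb : π ^ j * y ∈ maximalIdeal O ^ j := by
      rw [hπ, Ideal.span_singleton_pow]
      exact Ideal.mul_mem_right _ _ (Ideal.mem_span_singleton_self _)
    have e : g • (π ^ (j + 1) * y) - π ^ (j + 1) * y =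
        (g • π - π) * g • (π ^ j * y) + π * (g • (π ^ j * y) - π ^ j * y) := by
      rw [pow_succ', mul_assoc, smul_mul']; ring
    rw [e]
    refine Ideal.add_mem _ ?_ ?_
    · have : (g • π - π) * g • (π ^ j * y) ∈ maximalIdeal O ^ 2 * maximalIdeal O ^ j :=
        Ideal.mul_mem_mul (hg π) (smul_mem_pow g j hb)
      rw [← pow_add] at this
      exact Ideal.pow_le_pow_right (by omega) this
    · have : π * (g • (π ^ j * y) - π ^ j * y) ∈ maximalIdeal O * maximalIdeal O ^ (j + 1) :=
        Ideal.mul_mem_mul hπm (ih hb)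
      rwa [← pow_succ'] at this

/-- Additivity of `h ↦ h • π - π` modulo `m ^ (i + 1)` on the `i`-th ramification group. -/
theorem pow_smul_unif {π : O} (hπ : maximalIdeal O = Ideal.span {π}) {h : G} {i : ℕ}
    (hi : 2 ≤ i) (hh : h ∈ ramif O G i) (n : ℕ) :
    h ^ n • π - π - (n : O) * (h • π - π) ∈ maximalIdeal O ^ (i + 1) := by
  induction n with
  | zero => simp
  | succ n ih =>
    have e : h ^ (n + 1) • π - π - ((n + 1 : ℕ) : O) * (h • π - π) =
        (h ^ n • π - π - (n : O) * (h • π - π)) +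
          (h ^ n • (h • π - π) - (h • π - π)) := by
      rw [pow_succ, mul_smul, smul_sub]; push_cast; ring
    rw [e]
    refine Ideal.add_mem _ ih ?_
    exact smul_sub_mem_pow_succ hπ (ramif_antitone hi (pow_mem hh n)) i (hh π)

end Unif

section Main

variable {O : Type*} [CommRing O] [IsDomain O] [IsDiscreteValuationRing O]
variable {G : Type*} [Group G] [MulSemiringAction G O]

variable (O G) in
/-- The wild inertia subgroup. -/
abbrev wild : Subgroup G := ramif O G 2

theorem charP_residueField (q : ℕ) [hq : Fact q.Prime] (hchar : (q : O) ∈ maximalIdeal O) :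
    CharP (ResidueField O) q := by
  rw [CharP.charP_iff_prime_eq_zero hq.out]
  have := (residue_eq_zero_iff (q : O)).2 hchar
  simpa using this

theorem isUnit_natCast_of_coprime (q : ℕ) [hq : Fact q.Prime]
    (hchar : (q : O) ∈ maximalIdeal O) {r : ℕ} (hr : r.Coprime q) : IsUnit (r : O) := by
  have := charP_residueField (O := O) q hchar
  rw [← notMem_maximalIdeal, ← residue_eq_zero_iff, map_natCast,
    CharP.cast_eq_zero_iff (ResidueField O) q r]
  intro hdvd
  exact hq.out.one_lt.ne' (Nat.Coprime.eq_one_of_dvd hr.symm hdvd)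

variable [FaithfulSMul G O]

/-- An element of the wild inertia group whose order is prime to the residue characteristic is
trivial. -/
theorem eq_one_of_mem_wild_of_pow_eq_one (q : ℕ) [hq : Fact q.Prime]
    (hchar : (q : O) ∈ maximalIdeal O)
    (hdig : ∀ x : O, ∃ c : O, (∀ g : G, g • c = c) ∧ x - c ∈ maximalIdeal O)
    {h : G} (hh : h ∈ wild O G) {r : ℕ} (hr : r.Coprime q) (hpow : h ^ r = 1) : h = 1 := by
  obtain ⟨π, hπirr⟩ := IsDiscreteValuationRing.exists_irreducible O
  have hπ : maximalIdeal O = Ideal.span {π} := hπirr.maximalIdeal_eq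
  have hall : ∀ i : ℕ, 2 ≤ i → h ∈ ramif O G i := by
    intro i hi
    induction i, hi using Nat.le_induction with
    | base => exact hh
    | succ i hi ih =>
      refine mem_ramif_of_unif hπ hdig h (i + 1) ?_
      have h1 := pow_smul_unif hπ hi ih r
      rw [hpow, one_smul, sub_self, zero_sub, Ideal.neg_mem_iff] at h1
      exact (Ideal.unit_mul_mem_iff_mem _ (isUnit_natCast_of_coprime q hchar hr)).1 h1
  have hall' : ∀ i : ℕ, h ∈ ramif O G i := by
    intro i
    rcases le_total 2 i with hi | hi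
    · exact hall i hi
    · exact ramif_antitone hi hh
  have hkrull : ⨅ i : ℕ, maximalIdeal O ^ i = ⊥ :=
    Ideal.iInf_pow_eq_bot_of_isLocalRing (maximalIdeal O) Ideal.IsPrime.ne_top'
  refine FaithfulSMul.eq_of_smul_eq_smul (α := O) ?_
  intro x
  rw [one_smul, ← sub_eq_zero, ← Ideal.mem_bot, ← hkrull, Ideal.mem_iInf]
  intro i
  exact hall' i x

/-- The wild inertia group is a `q`-group. -/
theorem isPGroup_wild [Finite G] (q : ℕ) [hq : Fact q.Prime]
    (hchar : (q : O) ∈ maximalIdeal O)
    (hdig : ∀ x : O, ∃ c : O, (∀ g : G, g • c = c) ∧ x - c ∈ maximalIdeal O) :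
    IsPGroup q (wild O G) := by
  intro g
  obtain ⟨e, r, hr, hn⟩ := Nat.exists_eq_pow_mul_and_not_dvd (orderOf_pos g).ne' q
    hq.out.one_lt.ne'
  refine ⟨e, ?_⟩
  have h1 : ((g ^ q ^ e : wild O G) : G) = 1 := by
    refine eq_one_of_mem_wild_of_pow_eq_one q hchar hdig (g ^ q ^ e).2 (r := r) ?_ ?_
    · exact ((Nat.Prime.coprime_iff_not_dvd hq.out).2 hr).symm
    · rw [← Subgroup.coe_pow, ← pow_mul, ← hn, pow_orderOf_eq_one, Subgroup.coe_one]
  exact Subtype.ext h1

end Main

section Quot

variable {G : Type*} [Group G] {k : Type*}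

/-- The map induced on `G ⧸ N` by a monoid hom with kernel exactly `N` is injective. -/
theorem lift_injective_of_ker_eq [Monoid k] (θ : G →* k) (N : Subgroup G) [N.Normal]
    (hN : θ.ker = N) : Function.Injective (QuotientGroup.lift N θ (le_of_eq hN.symm)) := by
  rw [injective_iff_map_eq_one]
  intro a
  induction a using QuotientGroup.induction_on with
  | H g =>
    intro hg
    rw [QuotientGroup.lift_mk] at hg
    rw [QuotientGroup.eq_one_iff, ← hN]
    exact hg

theorem isCyclic_quotient_of_ker_eq [Finite G] [CommRing k] [IsDomain k] (θ : G →* k)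
    (N : Subgroup G) [N.Normal] (hN : θ.ker = N) : IsCyclic (G ⧸ N) :=
  isCyclic_of_injective_ringHom _ (lift_injective_of_ker_eq θ N hN)

theorem coprime_card_quotient_of_ker_eq [Finite G] [CommRing k] [IsDomain k] (q : ℕ)
    [hq : Fact q.Prime] [CharP k q] (θ : G →* k) (N : Subgroup G) [N.Normal]
    (hN : θ.ker = N) : (Nat.card (G ⧸ N)).Coprime q := by
  rw [Nat.coprime_comm, Nat.Prime.coprime_iff_not_dvd hq.out]
  intro hdvd
  obtain ⟨x, hx⟩ := exists_prime_orderOf_dvd_card' q hdvd
  set f := QuotientGroup.lift N θ (le_of_eq hN.symm) with hf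
  have h1 : f x ^ q = 1 := by rw [← map_pow, ← hx, pow_orderOf_eq_one, map_one]
  have h2 : (f x - 1) ^ q = 0 := by rw [sub_pow_char, h1, one_pow, sub_self]
  have h3 : f x = 1 := sub_eq_zero.1 ((pow_eq_zero_iff hq.out.ne_zero).1 h2)
  have h4 : x = 1 := lift_injective_of_ker_eq θ N hN (h3.trans (map_one f).symm)
  rw [h4, orderOf_one] at hx
  exact hq.out.one_lt.ne hx

end Quot

section Theta

variable {O : Type*} [CommRing O] [IsDomain O] [IsDiscreteValuationRing O]
variable {G : Type*} [Group G] [MulSemiringAction G O]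

theorem exists_cocycle {π : O} (hπ : maximalIdeal O = Ideal.span {π}) (g : G) :
    ∃ u : O, g • π = π * u := by
  have h : g • π ∈ maximalIdeal O :=
    (smul_mem_maximalIdeal_iff g π).2 (by rw [hπ]; exact Ideal.mem_span_singleton_self _)
  rw [hπ, Ideal.mem_span_singleton] at h
  exact h

/-- `cocycle hπ g = (g • π) / π`. -/
noncomputable def cocycle {π : O} (hπ : maximalIdeal O = Ideal.span {π}) (g : G) : O :=
  Classical.choose (exists_cocycle hπ g)

theorem cocycle_spec {π : O} (hπ : maximalIdeal O = Ideal.span {π}) (g : G) :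
    g • π = π * cocycle hπ g :=
  Classical.choose_spec (exists_cocycle hπ g)

theorem cocycle_one {π : O} (hπ : maximalIdeal O = Ideal.span {π}) (hπ0 : π ≠ 0) :
    cocycle hπ (1 : G) = 1 := by
  have h := cocycle_spec hπ (1 : G)
  rw [one_smul] at h
  exact (mul_left_cancel₀ hπ0 (h.symm.trans (mul_one π).symm))

theorem cocycle_mul {π : O} (hπ : maximalIdeal O = Ideal.span {π}) (hπ0 : π ≠ 0) (g h : G) :
    cocycle hπ (g * h) = cocycle hπ g * g • cocycle hπ h := by
  have h1 := cocycle_spec hπ (g * h)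
  rw [mul_smul, cocycle_spec hπ h, smul_mul', cocycle_spec hπ g, mul_assoc] at h1
  exact (mul_left_cancel₀ hπ0 h1).symm

/-- The tame character `g ↦ (g • π) / π mod m`. -/
noncomputable def theta {π : O} (hπ : maximalIdeal O = Ideal.span {π}) (hπ0 : π ≠ 0)
    (hdig : ∀ x : O, ∃ c : O, (∀ g : G, g • c = c) ∧ x - c ∈ maximalIdeal O) :
    G →* ResidueField O where
  toFun g := residue O (cocycle hπ g)
  map_one' := by rw [cocycle_one hπ hπ0, map_one]
  map_mul' g h := by
    rw [cocycle_mul hπ hπ0, map_mul]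
    congr 1
    rw [← sub_eq_zero, ← map_sub, residue_eq_zero_iff]
    have hg : g ∈ ramif O G 1 := by rw [ramif_one_eq_top hπ hdig]; exact Subgroup.mem_top g
    simpa using hg (cocycle hπ h)

theorem theta_ker {π : O} (hπ : maximalIdeal O = Ideal.span {π}) (hπ0 : π ≠ 0)
    (hdig : ∀ x : O, ∃ c : O, (∀ g : G, g • c = c) ∧ x - c ∈ maximalIdeal O) :
    (theta hπ hπ0 hdig).ker = wild O G := by
  have hπm : π ∈ maximalIdeal O := by rw [hπ]; exact Ideal.mem_span_singleton_self _
  ext g
  rw [MonoidHom.mem_ker]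
  change residue O (cocycle hπ g) = 1 ↔ _
  rw [← sub_eq_zero, ← map_one (residue O), ← map_sub, residue_eq_zero_iff]
  have e : g • π - π = π * (cocycle hπ g - 1) := by rw [cocycle_spec hπ g]; ring
  constructor
  · intro h
    refine mem_ramif_of_unif hπ hdig g 2 ?_
    rw [e, pow_two]
    exact Ideal.mul_mem_mul hπm h
  · intro h
    have h2 := h π
    rw [e, hπ, Ideal.span_singleton_pow, Ideal.mem_span_singleton] at h2
    obtain ⟨w, hw⟩ := h2
    rw [pow_two, mul_assoc] at hw
    rw [hπ, Ideal.mem_span_singleton]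
    exact ⟨w, mul_left_cancel₀ hπ0 hw⟩

theorem isCyclic_quotient_wild [Finite G]
    (hdig : ∀ x : O, ∃ c : O, (∀ g : G, g • c = c) ∧ x - c ∈ maximalIdeal O) :
    IsCyclic (G ⧸ wild O G) := by
  obtain ⟨π, hπirr⟩ := IsDiscreteValuationRing.exists_irreducible O
  exact isCyclic_quotient_of_ker_eq (theta hπirr.maximalIdeal_eq hπirr.ne_zero hdig) _
    (theta_ker hπirr.maximalIdeal_eq hπirr.ne_zero hdig)

theorem coprime_card_quotient_wild [Finite G] (q : ℕ) [hq : Fact q.Prime]
    (hchar : (q : O) ∈ maximalIdeal O)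
    (hdig : ∀ x : O, ∃ c : O, (∀ g : G, g • c = c) ∧ x - c ∈ maximalIdeal O) :
    (Nat.card (G ⧸ wild O G)).Coprime q := by
  obtain ⟨π, hπirr⟩ := IsDiscreteValuationRing.exists_irreducible O
  have := charP_residueField (O := O) q hchar
  exact coprime_card_quotient_of_ker_eq q (theta hπirr.maximalIdeal_eq hπirr.ne_zero hdig) _
    (theta_ker hπirr.maximalIdeal_eq hπirr.ne_zero hdig)

variable [Finite G] [FaithfulSMul G O]

/-- **Structure of inertia**: `G` is an extension of a cyclic group of order prime to `q` by a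
`q`-group. -/
theorem exists_wild_tame (q : ℕ) [Fact q.Prime] (hchar : (q : O) ∈ maximalIdeal O)
    (hdig : ∀ x : O, ∃ c : O, (∀ g : G, g • c = c) ∧ x - c ∈ maximalIdeal O) :
    ∃ (G₁ : Subgroup G) (_ : G₁.Normal),
      IsPGroup q G₁ ∧ IsCyclic (G ⧸ G₁) ∧ (Nat.card (G ⧸ G₁)).Coprime q :=
  ⟨wild O G, inferInstance, isPGroup_wild q hchar hdig, isCyclic_quotient_wild hdig,
    coprime_card_quotient_wild q hchar hdig⟩

/-- For `p ≠ q`, every `p`-subgroup of `G` is cyclic. -/
theorem isCyclic_of_isPGroup_subgroup (q : ℕ) [Fact q.Prime] (hchar : (q : O) ∈ maximalIdeal O)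
    (hdig : ∀ x : O, ∃ c : O, (∀ g : G, g • c = c) ∧ x - c ∈ maximalIdeal O)
    (p : ℕ) [Fact p.Prime] (hpq : p ≠ q) (P : Subgroup G) (hP : IsPGroup p P) : IsCyclic P := by
  have hdisj : Disjoint P (wild O G) :=
    IsPGroup.disjoint_of_ne p q hpq P (wild O G) hP (isPGroup_wild q hchar hdig)
  have := isCyclic_quotient_wild (O := O) (G := G) hdig
  refine isCyclic_of_injective ((QuotientGroup.mk' (wild O G)).comp P.subtype) ?_
  rw [injective_iff_map_eq_one]
  intro x hx
  have h1 : (x : G) ∈ wild O G := (QuotientGroup.eq_one_iff _).1 hx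
  have h2 : (x : G) ∈ P ⊓ wild O G := ⟨x.2, h1⟩
  rw [hdisj.eq_bot] at h2
  exact Subtype.ext (Subgroup.mem_bot.1 h2)

/-- Every normal subgroup of index prime to `q` contains the wild inertia group. -/
theorem wild_le_of_coprime (q : ℕ) [Fact q.Prime] (hchar : (q : O) ∈ maximalIdeal O)
    (hdig : ∀ x : O, ∃ c : O, (∀ g : G, g • c = c) ∧ x - c ∈ maximalIdeal O)
    (N : Subgroup G) [N.Normal] (hN : (Nat.card (G ⧸ N)).Coprime q) : wild O G ≤ N := by
  intro g hg
  obtain ⟨k, hk⟩ := isPGroup_wild q hchar hdig ⟨g, hg⟩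
  have hk' : g ^ q ^ k = 1 := by simpa using congrArg Subtype.val hk
  have h1 : orderOf (g : G ⧸ N) ∣ q ^ k :=
    orderOf_dvd_of_pow_eq_one (by rw [← QuotientGroup.mk_pow, hk', QuotientGroup.mk_one])
  have h2 : orderOf (g : G ⧸ N) ∣ Nat.card (G ⧸ N) := orderOf_dvd_natCard _
  have h3 : orderOf (g : G ⧸ N) = 1 :=
    Nat.eq_one_of_dvd_coprimes (Nat.Coprime.pow_left k hN.symm) h1 h2
  exact (QuotientGroup.eq_one_iff g).1 (orderOf_eq_one_iff.1 h3)

/-- Every quotient of `G` of order prime to `q` is cyclic. -/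
theorem isCyclic_quotient_of_coprime (q : ℕ) [Fact q.Prime] (hchar : (q : O) ∈ maximalIdeal O)
    (hdig : ∀ x : O, ∃ c : O, (∀ g : G, g • c = c) ∧ x - c ∈ maximalIdeal O)
    (N : Subgroup G) [N.Normal] (hN : (Nat.card (G ⧸ N)).Coprime q) : IsCyclic (G ⧸ N) := by
  have hle := wild_le_of_coprime q hchar hdig N hN
  have := isCyclic_quotient_wild (O := O) (G := G) hdig
  refine isCyclic_of_surjective (QuotientGroup.map (wild O G) N (MonoidHom.id G) hle) ?_
  intro x
  induction x using QuotientGroup.induction_on with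
  | H g => exact ⟨(g : G ⧸ wild O G), rfl⟩

/-- Every `p`-group quotient of `G`, `p ≠ q`, is cyclic: the maximal pro-`p` quotient of tame
inertia is procyclic. -/
theorem isCyclic_quotient_of_isPGroup (q : ℕ) [hq : Fact q.Prime]
    (hchar : (q : O) ∈ maximalIdeal O)
    (hdig : ∀ x : O, ∃ c : O, (∀ g : G, g • c = c) ∧ x - c ∈ maximalIdeal O)
    (p : ℕ) [hp : Fact p.Prime] (hpq : p ≠ q) (N : Subgroup G) [N.Normal]
    (hN : IsPGroup p (G ⧸ N)) : IsCyclic (G ⧸ N) := by
  refine isCyclic_quotient_of_coprime q hchar hdig N ?_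
  obtain ⟨n, hn⟩ := IsPGroup.iff_card.1 hN
  rw [hn]
  exact Nat.Coprime.pow_left n ((Nat.coprime_primes hp.out hq.out).2 hpq)

end Theta

end Fermat.Agent.GL.TameCyclic
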